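import Fermat.Agent.S33.Raw.ThmG
import Fermat.Agent.S33.M.Main

/-!
# S33 : INTERFACE with the geometric layers (owner helper1) : THEOREM G at the levels `M1 * p` with `r ∣ M1`, `r ∈ {2, 3}`

`thmG` (shape used by RAW, `S33/Raw/ThmG.lean`) from `thmG_M` (`S33/M/Main.lean`, helper1): `cong_iff_GT`, `wZ_GT_iff`, and a rearrangement of `O1`.   (helper14)
-/

set_option autoImplicit false
set_option synthInstance.maxHeartbeats 400000

open Fermat.Agent.S24 Fermat.Agent.S29 Fermat.Agent.S34.Mod Fermat.Agent.ES.Alg ExtCitation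

namespace Fermat.Agent.S33

theorem thmG {p : ℕ} [NeZero p] (hp : p.Prime) (hp2 : p ≠ 2) {M1 r : ℕ} [NeZero M1] [NeZero r]
    (S : Setup M1 p r (primeLocalPlace ⟨p, hp⟩)) : ThmG hp M1 S.hc := by
  intro u hu h0 h1 σ₀ hσ₀ hmv hfix hO
  have hu0 : u ≠ 0 := hu.1
  refine thmG_M (q := ⟨p, hp⟩) S hp2 hσ₀ hmv u hu (cong_iff_GT.mp h0) ?_ hfix ?_
  · refine (wZ_GT_iff (q := ⟨p, hp⟩) (M1 := M1) (l := p) S.hc).mpr ?_
    rw [map_sub, map_one]
    exact cong_iff_GT.mp h1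
  · intro σ hσ σ' hσ' c hc
    obtain ⟨g, hg⟩ := hO σ hσ σ' hσ' c hc
    refine ⟨g, ?_⟩
    have hsu : gal (M1 * p) σ u ≠ 0 := (map_ne_zero_iff _ (gal (M1 * p) σ).injective).mpr hu0
    rw [map_mul, map_inv₀, mul_pow, inv_pow] at hg
    have h3 : gal (M1 * p) σ (gal (M1 * p) σ' u) =
        gal (M1 * p) σ' u ^ c * (u ^ c)⁻¹ * g ^ p * gal (M1 * p) σ u := by
      rw [← hg, inv_mul_cancel_right₀ hsu]
    show gal (M1 * p) σ (gal (M1 * p) σ' u) * u ^ c =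
      gal (M1 * p) σ u * gal (M1 * p) σ' u ^ c * g ^ p
    rw [h3]
    field_simp

end Fermat.Agent.S33
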